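import Mathlib

/-!
# S16 / UB / Arith (owner: helper10): the pure arithmetic of the case analysis.

`C M` stands for "there is a weight-2 form on `Γ₀(p)` which is `≡ 1 mod M`".
-/

set_option autoImplicit false

namespace Fermat.Agent.S16.UB

/-- Inverse modulo `M` of a number coprime to `M`. -/
theorem exists_inv_mod {x M : ℕ} (h : Nat.Coprime x M) : ∃ u : ℤ, (M : ℤ) ∣ u * (x : ℤ) - 1 := by
  refine ⟨Nat.gcdA x M, -Nat.gcdB x M, ?_⟩
  have h1 := Nat.gcd_eq_gcd_ab x M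
  rw [h] at h1
  push_cast at h1
  linear_combination -h1

/-- If `g * n = N`, `ℓ^(t+c) ∣ N` and `ℓ^(c+1) ∤ g`, then `ℓ^t ∣ n`. -/
theorem pow_dvd_quot {ℓ g n N t c : ℕ} (hℓ : ℓ.Prime) (hN : N ≠ 0) (hgn : g * n = N)
    (h1 : ℓ ^ (t + c) ∣ N) (h2 : ¬ ℓ ^ (c + 1) ∣ g) : ℓ ^ t ∣ n := by
  have : Fact ℓ.Prime := Fact.mk hℓ
  have hg0 : g ≠ 0 := by rintro rfl; simp at hgn; exact hN hgn.symm
  have hn0 : n ≠ 0 := by rintro rfl; simp at hgn; exact hN hgn.symm
  rw [padicValNat_dvd_iff_le hn0]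
  rw [padicValNat_dvd_iff_le hN, ← hgn, padicValNat.mul hg0 hn0] at h1
  rw [padicValNat_dvd_iff_le hg0] at h2
  omega

/-- Pure arithmetic core of the case analysis. -/
theorem arith_core {p d : ℕ} (hp : p.Prime) (hp5 : 5 ≤ p) (C : ℕ → Prop)
    (hC : ∀ (s M : ℕ) (u : ℤ), 0 < s → s * M ∣ 24 * d → s ∣ p - 1 →
        (M : ℤ) ∣ u * (((p - 1) / s : ℕ) : ℤ) - 1 → C M)
    (hA : ∀ ℓ a : ℕ, ℓ.Prime → ℓ ≠ p → C (ℓ ^ a) → ℓ ^ a ∣ p + 1)
    (ha : ∀ ℓ : ℕ, ℓ.Prime → 5 ≤ ℓ → ¬ C ℓ)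
    (hb : ¬ C 9) (hc : p % 4 = 3 → ¬ C 8) :
    d ∣ (p - 1) / Nat.gcd (p - 1) 12 := by
  have hN : p - 1 ≠ 0 := by omega
  have hg12 : Nat.gcd (p - 1) 12 ∣ 12 := Nat.gcd_dvd_right _ _
  have hgn : Nat.gcd (p - 1) 12 * ((p - 1) / Nat.gcd (p - 1) 12) = p - 1 :=
    Nat.mul_div_cancel' (Nat.gcd_dvd_left _ _)
  -- the key consequence of `hC`
  have key : ∀ (ℓ j : ℕ), ℓ.Prime → ℓ ^ (padicValNat ℓ (p - 1) + j) ∣ 24 * d → C (ℓ ^ j) := by
    intro ℓ j hℓ hdvd
    have : Fact ℓ.Prime := Fact.mk hℓ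
    have hs : ℓ ^ padicValNat ℓ (p - 1) ∣ p - 1 := pow_padicValNat_dvd
    have hcop : Nat.Coprime ((p - 1) / ℓ ^ padicValNat ℓ (p - 1)) (ℓ ^ j) := by
      apply Nat.Coprime.pow_right
      rw [Nat.coprime_comm, Nat.Prime.coprime_iff_not_dvd hℓ]
      intro hdiv
      apply pow_succ_padicValNat_not_dvd (p := ℓ) hN
      rw [pow_succ]
      exact Nat.mul_dvd_of_dvd_div hs hdiv
    obtain ⟨u, hu⟩ := exists_inv_mod hcop
    refine hC (ℓ ^ padicValNat ℓ (p - 1)) (ℓ ^ j) u (pow_pos hℓ.pos _) ?_ hs ?_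
    · rwa [← pow_add]
    · exact_mod_cast hu
  rw [Nat.dvd_iff_prime_pow_dvd_dvd]
  intro ℓ t hℓ hℓt
  have : Fact ℓ.Prime := Fact.mk hℓ
  rcases Nat.eq_zero_or_pos t with rfl | ht
  · simp
  by_cases h2 : ℓ = 2
  · subst h2
    -- `2^(t+3) ∣ 24 d`
    have h24 : 2 ^ (t + 3) ∣ 24 * d := by
      have : 2 ^ (t + 3) = 8 * 2 ^ t := by ring
      rw [this]
      obtain ⟨m, hm⟩ := hℓt
      exact ⟨3 * m, by rw [hm]; ring⟩
    have hodd : p % 2 = 1 := by
      rcases hp.eq_two_or_odd with h | h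
      · omega
      · exact h
    -- `e ≥ 2`
    have he2 : 2 ≤ padicValNat 2 (p - 1) := by
      by_contra hlt
      have he1 : 1 ≤ padicValNat 2 (p - 1) := by
        rw [← padicValNat_dvd_iff_le hN]
        simp only [pow_one]
        omega
      have he : padicValNat 2 (p - 1) = 1 := by omega
      have hp4 : p % 4 = 3 := by
        have hnd : ¬ 2 ^ 2 ∣ p - 1 := by
          rw [padicValNat_dvd_iff_le hN]; omega
        omega
      apply hc hp4
      have := key 2 3 Nat.prime_two (by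
        rw [he]
        exact dvd_trans (pow_dvd_pow 2 (by omega)) h24)
      simpa using this
    -- `e ≥ t + 2`
    have het : t + 2 ≤ padicValNat 2 (p - 1) := by
      by_contra hlt
      have h4 : 2 ^ 2 ∣ p + 1 := hA 2 2 Nat.prime_two (by omega)
        (key 2 2 Nat.prime_two (dvd_trans (pow_dvd_pow 2 (by omega)) h24))
      have h4' : 2 ^ 2 ∣ p - 1 := by
        rw [padicValNat_dvd_iff_le hN]; exact he2
      omega
    refine pow_dvd_quot (c := 2) Nat.prime_two hN hgn ?_ ?_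
    · rw [padicValNat_dvd_iff_le hN]; exact het
    · intro h8
      have : 2 ^ (2 + 1) ∣ 12 := dvd_trans h8 hg12
      omega
  by_cases h3 : ℓ = 3
  · subst h3
    have h24 : 3 ^ (t + 1) ∣ 24 * d := by
      have : 3 ^ (t + 1) = 3 * 3 ^ t := by ring
      rw [this]
      obtain ⟨m, hm⟩ := hℓt
      exact ⟨8 * m, by rw [hm]; ring⟩
    have he1 : 1 ≤ padicValNat 3 (p - 1) := by
      by_contra hlt
      have he : padicValNat 3 (p - 1) = 0 := by omega
      apply hb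
      have := key 3 2 Nat.prime_three (by
        rw [he]
        exact dvd_trans (pow_dvd_pow 3 (by omega)) h24)
      simpa using this
    have het : t + 1 ≤ padicValNat 3 (p - 1) := by
      by_contra hlt
      have h3 : 3 ^ 1 ∣ p + 1 := hA 3 1 Nat.prime_three (by omega)
        (key 3 1 Nat.prime_three (dvd_trans (pow_dvd_pow 3 (by omega)) h24))
      have h3' : 3 ^ 1 ∣ p - 1 := by
        rw [padicValNat_dvd_iff_le hN]; exact he1
      omega
    refine pow_dvd_quot (c := 1) Nat.prime_three hN hgn ?_ ?_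
    · rw [padicValNat_dvd_iff_le hN]; exact het
    · intro h9
      have : 3 ^ (1 + 1) ∣ 12 := dvd_trans h9 hg12
      omega
  · -- `ℓ ≥ 5`
    have hℓ5 : 5 ≤ ℓ := by
      have := hℓ.two_le
      rcases Nat.lt_or_ge ℓ 5 with h | h
      · interval_cases ℓ
        · exact absurd rfl h2
        · exact absurd rfl h3
        · exact absurd hℓ (by decide)
      · exact h
    have het : t ≤ padicValNat ℓ (p - 1) := by
      by_contra hlt
      apply ha ℓ hℓ hℓ5
      have := key ℓ 1 hℓ (dvd_trans (pow_dvd_pow ℓ (by omega)) (dvd_trans hℓt (Dvd.intro_left 24 rfl)))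
      simpa using this
    refine pow_dvd_quot (c := 0) hℓ hN hgn ?_ ?_
    · rw [padicValNat_dvd_iff_le hN]; exact het
    · intro hdiv
      have h12 : ℓ ∣ 12 := dvd_trans (by simpa using hdiv) hg12
      have hle : ℓ ≤ 12 := Nat.le_of_dvd (by norm_num) h12
      interval_cases ℓ <;> first | omega | exact absurd hℓ (by decide)

end Fermat.Agent.S16.UB
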