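import Mathlib
import Fermat.Prelude.Def_FLTPrelim_Modularity

/-!
# S16 / UB / Defs (owner: helper10, UB lead).  FROZEN.

`CongOne f M`: the weight-2 form `f` on `Γ₀(p)` has integer `q`-coefficients, constant term
`≡ 1 mod M` and all higher coefficients `≡ 0 mod M`  ("`f ≡ 1 mod M`").
-/

set_option autoImplicit false

open UpperHalfPlane CongruenceSubgroup

namespace Fermat.Agent.S16.UB

/-- `f ≡ 1 mod M` (integer `q`-expansion, `a₀ ≡ 1`, `a_k ≡ 0` for `k ≥ 1`). -/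
def CongOne {p : ℕ} (f : ModularForm (Gamma0 p) 2) (M : ℕ) : Prop :=
  ∃ a : ℕ → ℤ, (∀ k : ℕ, ModularFormClass.qCoeff f k = (a k : ℂ)) ∧ (M : ℤ) ∣ a 0 - 1 ∧
    ∀ k : ℕ, 1 ≤ k → (M : ℤ) ∣ a k

end Fermat.Agent.S16.UB
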