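import Mathlib
import Fermat.Agent.S16.UB.Defs
import Fermat.Agent.S16.UBA.Main

/-!
# S16 / UB / Lemma A (statement FROZEN by helper10; proof owner: helper14, dir `S16/UBA/`).

`ℓ ≠ p` prime, `f ≡ 1 mod ℓ^a`  ⟹  `ℓ^a ∣ p + 1`.
(Trace of `f · Δ(pz)` to level one lies in `S₁₄(SL₂ℤ) = 0`.)
-/

set_option autoImplicit false

open UpperHalfPlane CongruenceSubgroup

namespace Fermat.Agent.S16.UB

theorem lemmaA {p : ℕ} (hp : p.Prime) (hp5 : 5 ≤ p) {ℓ a : ℕ} (hℓ : ℓ.Prime) (hℓp : ℓ ≠ p)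
    (f : ModularForm (Gamma0 p) 2) (hf : CongOne f (ℓ ^ a)) : ℓ ^ a ∣ p + 1 :=
  LemmaAAux.lemmaA' hp hℓ hℓp f hf

end Fermat.Agent.S16.UB
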