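import Mathlib
import Fermat.Agent.S16.UB.Defs
import Fermat.Agent.S16.UBa.Main

/-!
# S16 / UB / U-a (statement FROZEN by helper10; proof owner: helper18, dir `S16/UBa/`).

For a prime `ℓ ≥ 5` (`ℓ = p` allowed) there is no `f ≡ 1 mod ℓ` in `M₂(Γ₀(p))`.
(Norm–Sturm principle for `E₄(pz) - f²` (`ℓ ≥ 7`) resp. `E₆(pz) - f³` (`ℓ = 5`).)
-/

set_option autoImplicit false

open UpperHalfPlane CongruenceSubgroup

namespace Fermat.Agent.S16.UB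

theorem Ua {p : ℕ} (hp : p.Prime) (hp5 : 5 ≤ p) {ℓ : ℕ} (hℓ : ℓ.Prime) (hℓ5 : 5 ≤ ℓ)
    (f : ModularForm (Gamma0 p) 2) (hf : CongOne f ℓ) : False :=
  Fermat.Agent.S16.UBa.Ua hp hp5 hℓ hℓ5 f hf

end Fermat.Agent.S16.UB
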