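import Mathlib
import Fermat.Agent.S16.UB.Defs
import Fermat.Agent.S16.UBa.Main

/-!
# S16 / UB / U-b (statement FROZEN by helper10; proof owner: helper18, dir `S16/UBa/`).

There is no `f ≡ 1 mod 9` in `M₂(Γ₀(p))` (`p ≥ 5`).
(Norm–Sturm principle for `(E₄(pz) - f²)/3`.)
-/

set_option autoImplicit false

open UpperHalfPlane CongruenceSubgroup

namespace Fermat.Agent.S16.UB

theorem Ub {p : ℕ} (hp : p.Prime) (hp5 : 5 ≤ p) (f : ModularForm (Gamma0 p) 2)
    (hf : CongOne f 9) : False :=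
  Fermat.Agent.S16.UBa.Ub hp hp5 f hf

end Fermat.Agent.S16.UB
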