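import Mathlib
import Fermat.Agent.S16.UB.Defs
import Fermat.Agent.S16.UBc.Main

/-!
# S16 / UB / U-c (statement FROZEN by helper10; proof owner: helper11, dir `S16/UBc/`).

For `p ≡ 3 mod 4` (`p ≥ 5`) there is no `f ≡ 1 mod 8` in `M₂(Γ₀(p))`.
(Norm–Sturm principle on `Γ₀(3p)` for `(E*₃(pz) - f)/4`.)
-/

set_option autoImplicit false

open UpperHalfPlane CongruenceSubgroup

namespace Fermat.Agent.S16.UB

theorem Uc {p : ℕ} (hp : p.Prime) (hp5 : 5 ≤ p) (hp4 : p % 4 = 3)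
    (f : ModularForm (Gamma0 p) 2) (hf : CongOne f 8) : False :=
  Fermat.Agent.S16.UBc.Uc' hp hp5 hp4 f hf

end Fermat.Agent.S16.UB
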