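import Mathlib
import Fermat.Prelude.Def_ModularCurve_ModularUnit
import Fermat.Agent.S23.Nice
import Fermat.Agent.S16.UB.Defs
import Fermat.Agent.S16.UB.Arith
import Fermat.Agent.S16.UB.LemmaA
import Fermat.Agent.S16.UB.Ua
import Fermat.Agent.S16.UB.Ub
import Fermat.Agent.S16.UB.Uc

/-!
# S16 / UB / Cases (owner: helper10): the case analysis `Lemma A + U-a + U-b + U-c ⟹ (UBin)`.

`ubin_core`: let `E ∈ M₂(Γ₀(p))` have `a₀(E) = 1` and `(p-1)·a_k(E) = 24·σ(k)` for an integer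
sequence `σ` (this is `E*` with `σ = σ'`), and let `f ∈ S₂(Γ₀(p))` have integer coefficients
`a_k ≡ σ(k) mod d` (`k ≥ 1`).  Then `d ∣ (p-1)/gcd(p-1,12)`.
-/

set_option autoImplicit false

open UpperHalfPlane CongruenceSubgroup ModularFormClass

namespace Fermat.Agent.S16.UB

open Fermat.Agent.S23 in
/-- `q`-coefficients of `c • E - c' • f`. -/
theorem qCoeff_comb {p : ℕ} [NeZero p] (E : ModularForm (Gamma0 p) 2) (f : CuspForm (Gamma0 p) 2)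
    (c c' : ℂ) (k : ℕ) :
    qCoeff (c • E - c' • CuspForm.toModularFormₗ f : ModularForm (Gamma0 p) 2) k
      = c * qCoeff E k - c' * qCoeff f k := by
  have h1 : ((c • E - c' • CuspForm.toModularFormₗ f : ModularForm (Gamma0 p) 2) : ℍ → ℂ)
      = ((c • ofMF E - c' • ofCF f : niceAlg) : ℍ → ℂ) := by
    funext z
    simp
  have h2 : qExpansion 1 ((c • ofMF E - c' • ofCF f : niceAlg) : ℍ → ℂ)
      = c • qExpansion 1 E - c' • qExpansion 1 f := by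
    rw [← qExp_apply, map_sub, map_smul, map_smul, qExp_ofMF, qExp_ofCF]
  unfold qCoeff
  rw [h1, h2]
  simp

theorem qCoeff_cusp_zero {p : ℕ} (f : CuspForm (Gamma0 p) 2) : qCoeff f 0 = 0 := by
  unfold qCoeff
  exact CuspFormClass.qExpansion_coeff_zero f one_pos
    (CongruenceSubgroup.one_mem_strictPeriods_Gamma0 p)

theorem congOne_of {p : ℕ} (hp : p.Prime) (σ : ℕ → ℤ)
    (E : ModularForm (Gamma0 p) 2) (hE0 : qCoeff E 0 = 1)
    (hEk : ∀ k : ℕ, 1 ≤ k → ((p : ℂ) - 1) * qCoeff E k = 24 * (σ k : ℂ))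
    {d : ℕ} (f : CuspForm (Gamma0 p) 2) (a : ℕ → ℤ)
    (ha : ∀ k : ℕ, qCoeff f k = (a k : ℂ)) (hcong : ∀ k : ℕ, 1 ≤ k → (d : ℤ) ∣ a k - σ k)
    (s M : ℕ) (u : ℤ) (hs : 0 < s) (hsM : s * M ∣ 24 * d) (hsp : s ∣ p - 1)
    (hu : (M : ℤ) ∣ u * (((p - 1) / s : ℕ) : ℤ) - 1) :
    ∃ f₁ : ModularForm (Gamma0 p) 2, CongOne f₁ M := by
  have : NeZero p := ⟨hp.ne_zero⟩
  have hsC : (s : ℂ) ≠ 0 := Nat.cast_ne_zero.mpr hs.ne'
  have hsZ : (s : ℤ) ≠ 0 := Int.natCast_ne_zero.mpr hs.ne'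
  -- divisibility facts
  have hsMZ : ((s : ℤ) * (M : ℤ)) ∣ 24 * (d : ℤ) := by exact_mod_cast hsM
  have hdk : ∀ k : ℕ, 1 ≤ k → ((s : ℤ) * (M : ℤ)) ∣ 24 * (σ k - a k) := by
    intro k hk
    obtain ⟨m, hm⟩ := hcong k hk
    refine dvd_trans hsMZ ⟨-m, ?_⟩
    linear_combination -24 * hm
  refine ⟨(((u : ℂ) / (s : ℂ)) * ((p : ℂ) - 1)) • E
      - (((u : ℂ) / (s : ℂ)) * 24) • CuspForm.toModularFormₗ f,
    fun k => if k = 0 then u * (((p - 1) / s : ℕ) : ℤ) else u * (24 * (σ k - a k) / (s : ℤ)),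
    ?_, ?_, ?_⟩
  · intro k
    rw [qCoeff_comb]
    by_cases hk : k = 0
    · subst hk
      dsimp only
      rw [if_pos rfl, hE0, qCoeff_cusp_zero, mul_zero, sub_zero, mul_one]
      have h1 : ((((p - 1) / s : ℕ) : ℤ) : ℂ) = ((p : ℂ) - 1) / (s : ℂ) := by
        rw [Int.cast_natCast, Nat.cast_div hsp hsC, Nat.cast_sub hp.one_le, Nat.cast_one]
      rw [Int.cast_mul, h1]
      field_simp
    · dsimp only
      rw [if_neg hk]
      have hk1 : 1 ≤ k := Nat.one_le_iff_ne_zero.mpr hk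
      have hdiv : (s : ℤ) ∣ 24 * (σ k - a k) := dvd_trans (Dvd.intro _ rfl) (hdk k hk1)
      have h1 : ((24 * (σ k - a k) / (s : ℤ) : ℤ) : ℂ) = (24 * ((σ k : ℂ) - (a k : ℂ))) / (s : ℂ) := by
        rw [Int.cast_div hdiv (by exact_mod_cast hsC)]
        push_cast
        ring
      rw [ha k]
      push_cast
      rw [h1, mul_assoc ((u : ℂ) / (s : ℂ)), hEk k hk1]
      field_simp
  · dsimp only
    rw [if_pos rfl]
    exact hu
  · intro k hk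
    dsimp only
    rw [if_neg (by omega)]
    exact Dvd.dvd.mul_left (Int.dvd_div_of_mul_dvd (hdk k hk)) u

/-- The case analysis: `(UBin)` for any "Eisenstein-like" form `E`. -/
theorem ubin_core {p : ℕ} (hp : p.Prime) (hp5 : 5 ≤ p) (σ : ℕ → ℤ)
    (E : ModularForm (Gamma0 p) 2) (hE0 : qCoeff E 0 = 1)
    (hEk : ∀ k : ℕ, 1 ≤ k → ((p : ℂ) - 1) * qCoeff E k = 24 * (σ k : ℂ))
    {d : ℕ} (f : CuspForm (Gamma0 p) 2) (a : ℕ → ℤ)
    (ha : ∀ k : ℕ, qCoeff f k = (a k : ℂ)) (hcong : ∀ k : ℕ, 1 ≤ k → (d : ℤ) ∣ a k - σ k) :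
    d ∣ ModularCurve.eisensteinNumerator p := by
  unfold ModularCurve.eisensteinNumerator
  exact arith_core hp hp5 (fun M => ∃ f₁ : ModularForm (Gamma0 p) 2, CongOne f₁ M)
    (fun s M u hs hsM hsp hu => congOne_of hp σ E hE0 hEk f a ha hcong s M u hs hsM hsp hu)
    (fun ℓ a hℓ hℓp ⟨f₁, h⟩ => lemmaA hp hp5 hℓ hℓp f₁ h)
    (fun ℓ hℓ hℓ5 ⟨f₁, h⟩ => Ua hp hp5 hℓ hℓ5 f₁ h)
    (fun ⟨f₁, h⟩ => Ub hp hp5 f₁ h)
    (fun hp4 ⟨f₁, h⟩ => Uc hp hp5 hp4 f₁ h)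

end Fermat.Agent.S16.UB
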