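import Mathlib
import Fermat.Prelude.Def_ModularCurve_ModularUnit
import Fermat.Agent.S16.MF.Exp
import Fermat.Agent.S16.E2.Iface
import Fermat.Agent.S16.UB.Cases

/-!
# S16 / UB / Main (owner: helper10): the frozen deliverable `(UBin)`.

`ubin`: for a prime `p ≥ 5`, if `f ∈ S₂(Γ₀(p))` has integer `q`-coefficients `a_k` with
`a_k ≡ σ'(k) mod d` for all `k ≥ 1` (`σ'(k) = sigmaNat p k = Σ_{e ∣ k, p ∤ e} e`), then
`d ∣ n(p) = (p-1)/gcd(p-1,12)`.  No hypothesis on `d` (`d = 0` allowed).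
-/

set_option autoImplicit false

open UpperHalfPlane CongruenceSubgroup ModularFormClass

namespace Fermat.Agent.S16.UB

/-- **(UBin)**, the upper-bound input of the duality argument. -/
theorem ubin {p : ℕ} (hp : p.Prime) (hp5 : 5 ≤ p) {d : ℕ}
    (f : CuspForm (CongruenceSubgroup.Gamma0 p) 2) (a : ℕ → ℤ)
    (ha : ∀ k : ℕ, ModularFormClass.qCoeff (⇑f) k = ((a k : ℤ) : ℂ))
    (hcong : ∀ k : ℕ, 1 ≤ k → (d : ℤ) ∣ a k - ((sigmaNat p k : ℕ) : ℤ)) :
    d ∣ ModularCurve.eisensteinNumerator p := by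
  obtain ⟨E, hE0, hEk⟩ := exists_Estar hp
  refine ubin_core hp hp5 (fun k => ((sigmaNat p k : ℕ) : ℤ)) E hE0 (fun k hk => ?_) f a ha hcong
  have h := hEk k hk
  unfold ModularFormClass.qCoeff
  rw [Int.cast_natCast]
  exact h

end Fermat.Agent.S16.UB
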